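import Fermat.Agent.S18.RED.P0
import Fermat.Agent.S18.RED.P3

/-!
# S18 / RED, piece 4 (REDFT), proofs (helper2689)

All eight statements of `Fermat/Agent/S18/RED/P4.lean`, verbatim, in the namespace
`Fermat.Agent.S18.RED2689`, on top of the stubs of pieces 0, 1, 3.
-/

set_option autoImplicit false

noncomputable section

namespace Fermat.Agent.S18.RED2689

open ModularCurve ModularCurve.IgusaScheme Polynomial
open Fermat.Agent.S28 Fermat.Agent.S28.QRed

variable (N : ℕ) [NeZero N] (ℓ : ℕ) [Fact ℓ.Prime]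

set_option quotPrecheck false in
local notation "Rl" => ↥(GaloisRep.ratLocalizedAt ℓ)

set_option quotPrecheck false in
local notation "FF" => ↥(modularFunctionFieldFull N)

/-! ### `j(q^d)` in the Gauss ring -/

omit [Fact ℓ.Prime] in
theorem iota_jd (d : ℕ) [NeZero d] :
    iota ℓ (qExpand Rl d (jqModC Rl)) = qExpand ℚ d (jqModC ℚ) := by
  rw [iota, ModularCurve.coeffMap_qExpand, ModularCurve.coeffMap_jqModC]

theorem red_jd (d : ℕ) [NeZero d] :
    red ℓ (qExpand Rl d (jqModC Rl)) = qExpand (ZMod ℓ) d (jqModC (ZMod ℓ)) := by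
  rw [red, ModularCurve.coeffMap_qExpand, ModularCurve.coeffMap_jqModC]

theorem jd_mem_OQ (d : ℕ) [NeZero d] (hd : d ∣ N) :
    (⟨qExpand ℚ d (jqModC ℚ), jqModCd_mem_full ℚ N hd⟩ : ↥(modularFunctionFieldFull N)) ∈
      OQ N ℓ := by
  rw [mem_OQ]
  show qExpand ℚ d (jqModC ℚ) ∈ Vring ℓ
  rw [← iota_jd ℓ d]
  exact iota_mem_Vring ℓ _

theorem redO_jd (d : ℕ) [NeZero d] (hd : d ∣ N) :
    redO N ℓ ⟨⟨qExpand ℚ d (jqModC ℚ), jqModCd_mem_full ℚ N hd⟩, jd_mem_OQ N ℓ d hd⟩ =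
      qExpand (ZMod ℓ) d (jqModC (ZMod ℓ)) := by
  have h : OQtoV N ℓ ⟨⟨qExpand ℚ d (jqModC ℚ), jqModCd_mem_full ℚ N hd⟩, jd_mem_OQ N ℓ d hd⟩ =
      ⟨iota ℓ (qExpand Rl d (jqModC Rl)), iota_mem_Vring ℓ _⟩ :=
    Subtype.ext (iota_jd ℓ d).symm
  show redV ℓ (OQtoV N ℓ _) = _
  rw [h, redV_iota, red_jd]

/-! ### The residue field of the Gauss ring -/

omit [NeZero N] in
theorem aeval_jqModC_mem_full (K : Type*) [Field K] (p : K[X]) :
    aeval (jqModC K) p ∈ modularFunctionFieldFullC K N := by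
  have h1 : aeval (jqModC K) p ∈ Algebra.adjoin K {jqModC K} := aeval_mem_adjoin_singleton K _
  have h2 : Algebra.adjoin K {jqModC K} ≤ (modularFunctionFieldFullC K N).toSubalgebra :=
    Algebra.adjoin_le (Set.singleton_subset_iff.mpr (jqModC_mem_full K N))
  exact h2 h1

theorem redO_mem_full (hℓN : ¬ ℓ ∣ N) (z : OQ N ℓ) :
    redO N ℓ z ∈ modularFunctionFieldFullC (ZMod ℓ) N := by
  obtain ⟨n, d, a, hd, h⟩ := exists_red_rel N ℓ hℓN z
  have hN : ((N : ℕ) : ZMod ℓ) ≠ 0 := by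
    rw [Ne, ZMod.natCast_eq_zero_iff]; exact hℓN
  have hy := yUnit_mem_full N (ZMod ℓ) hN
  have hd' : aeval (jqModC (ZMod ℓ)) d ≠ 0 := fun h0 =>
    hd (eq_zero_of_aeval_jqModC_eq_zero _ h0)
  have hz : redO N ℓ z = (∑ i, aeval (jqModC (ZMod ℓ)) (a i) *
      (yUnit (ZMod ℓ) N : LaurentSeries (ZMod ℓ)) ^ (i : ℕ)) *
        (aeval (jqModC (ZMod ℓ)) d)⁻¹ := by
    rw [← h, mul_assoc, mul_inv_cancel₀ hd', mul_one]
  rw [hz]
  exact mul_mem (sum_mem fun i _ => mul_mem (aeval_jqModC_mem_full N _ _) (pow_mem hy _))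
    (inv_mem (aeval_jqModC_mem_full N _ _))

theorem redO_surjective_full (w : LaurentSeries (ZMod ℓ))
    (hw : w ∈ modularFunctionFieldFullC (ZMod ℓ) N) : ∃ z : OQ N ℓ, redO N ℓ z = w := by
  rw [modularFunctionFieldFullC] at hw
  induction hw using IntermediateField.adjoin_induction with
  | mem x hx =>
    obtain ⟨d, hne, hdN, rfl⟩ := hx
    have := hne
    exact ⟨_, redO_jd N ℓ d hdN⟩
  | algebraMap c =>
    have : NeZero ℓ := ⟨(Fact.out : ℓ.Prime).ne_zero⟩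
    refine ⟨((ZMod.val c : ℕ) : OQ N ℓ), ?_⟩
    rw [map_natCast, ← map_natCast (algebraMap (ZMod ℓ) (LaurentSeries (ZMod ℓ))),
      ZMod.natCast_zmod_val]
  | add x y _ _ hx hy =>
    obtain ⟨a, rfl⟩ := hx
    obtain ⟨b, rfl⟩ := hy
    exact ⟨a + b, map_add _ _ _⟩
  | inv x _ hx =>
    obtain ⟨a, rfl⟩ := hx
    by_cases h0 : redO N ℓ a = 0
    · exact ⟨0, by rw [h0, inv_zero, map_zero]⟩
    · have ha0 : (a : FF) ≠ 0 := by
        intro h
        apply h0
        have : a = 0 := Subtype.ext h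
        rw [this, map_zero]
      have hinv := inv_mem_OQ N ℓ a.1 a.2 h0
      refine ⟨⟨a.1⁻¹, hinv⟩, ?_⟩
      apply eq_inv_of_mul_eq_one_left
      rw [← map_mul]
      have : (⟨a.1⁻¹, hinv⟩ : OQ N ℓ) * a = 1 := Subtype.ext (inv_mul_cancel₀ ha0)
      rw [this, map_one]
  | mul x y _ _ hx hy =>
    obtain ⟨a, rfl⟩ := hx
    obtain ⟨b, rfl⟩ := hy
    exact ⟨a * b, map_mul _ _ _⟩

/-! ### Integrality of the reductions of the charts -/

/-- evaluation at a coordinate of the chart, with values in the chart algebra -/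
def evChart (t : FF) : Rl[X] →+* chartAlg N ℓ {t} :=
  RingHom.codRestrict (evF N ℓ t) (chartAlg N ℓ {t}).toSubring (fun c => by
    apply adjoin_le_chartAlg N ℓ {t}
    show (aeval t c) ∈ Algebra.adjoin Rl {t}
    rw [Algebra.adjoin_singleton_eq_range_aeval]
    exact ⟨c, rfl⟩)

theorem coe_evChart (t : FF) (c : Rl[X]) : ((evChart N ℓ t c : chartAlg N ℓ {t}) : FF) =
    evF N ℓ t c := rfl

theorem redChart_evChart (t : FF) (hS : ∀ s ∈ ({t} : Set FF), valF N s ∈ Vring ℓ) (c : Rl[X]) :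
    redChart N ℓ {t} hS (evChart N ℓ t c) =
      aeval (redV ℓ ⟨valF N t, hS t rfl⟩) (c.map (rho0 ℓ)) := by
  rw [← redV_evV N ℓ t (hS t rfl) c]
  show redV ℓ (toV N ℓ {t} hS (evChart N ℓ t c)) = _
  congr 1
  apply Subtype.ext
  rw [coe_toV, coe_evV, coe_evChart]

theorem redChart_isIntegral (t : FF) (hS : ∀ s ∈ ({t} : Set FF), valF N s ∈ Vring ℓ)
    (x : chartAlg N ℓ {t}) :
    IsIntegral (Algebra.adjoin (ZMod ℓ) {redV ℓ ⟨valF N t, hS t rfl⟩})
      (redChart N ℓ {t} hS x) := by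
  have hx : IsIntegral (Algebra.adjoin Rl {t}) (x : FF) := x.2
  obtain ⟨p, hp, hpx⟩ := (isIntegral_adjoin_singleton_iff t (x : FF)).mp hx
  rw [isIntegral_adjoin_singleton_iff]
  have h1 : eval₂ (evChart N ℓ t) x p = 0 := by
    apply Subtype.ext
    have := hom_eval₂ p (evChart N ℓ t) (chartAlg N ℓ {t}).val.toRingHom x
    rw [ZeroMemClass.coe_zero]
    refine Eq.trans ?_ hpx
    exact this
  have h2 := congrArg (redChart N ℓ {t} hS) h1
  rw [hom_eval₂, map_zero] at h2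
  refine ⟨p.map (mapRingHom (rho0 ℓ)), hp.map _, ?_⟩
  rw [eval₂_map]
  refine Eq.trans ?_ h2
  congr 1
  apply RingHom.ext
  intro c
  exact (redChart_evChart N ℓ t hS c).symm

theorem redFin_isIntegral (x : chartAlgFin N ℓ) :
    IsIntegral (Algebra.adjoin (ZMod ℓ) {jqModC (ZMod ℓ)}) (redFin N ℓ x) := by
  have h := redChart_isIntegral N ℓ (jFull N)
    (by rintro s rfl; exact jFull_mem_Vring N ℓ) x
  rw [redV_jFull] at h
  exact h

theorem redInf_isIntegral (x : chartAlgInf N ℓ) :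
    IsIntegral (Algebra.adjoin (ZMod ℓ) {(jqModC (ZMod ℓ))⁻¹}) (redInf N ℓ x) := by
  have h := redChart_isIntegral N ℓ (jFull N)⁻¹
    (by rintro s rfl; exact jFull_inv_mem_Vring N ℓ) x
  rw [redV_jFull_inv] at h
  exact h

/-! ### Generic integrality lemmas -/

/-- Scaling a root: if `P` is monic over `R₂` with root `x` and `f s * P.coeff i ∈ range f` for all
`i`, then `g (f s) * x` is integral over `R₁`. -/
theorem isIntegralElem_mul_of_coeff {R₁ R₂ B : Type*} [CommRing R₁] [CommRing R₂] [CommRing B]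
    (f : R₁ →+* R₂) (g : R₂ →+* B) (s : R₁) {x : B} (P : R₂[X]) (hP : P.Monic)
    (hroot : P.eval₂ g x = 0) (hs : ∀ i, ∃ c : R₁, f c = f s * P.coeff i) :
    (g.comp f).IsIntegralElem (g (f s) * x) := by
  classical
  set q : R₂[X] := P.scaleRoots (f s) with hq
  have hqmonic : q.Monic := (monic_scaleRoots_iff _).mpr hP
  have hqroot : q.eval₂ g (g (f s) * x) = 0 := by
    rw [hq, scaleRoots_eval₂_mul, hroot, mul_zero]
  have hlifts : q ∈ lifts f := by
    rw [lifts_iff_coeff_lifts]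
    intro i
    rw [hq, coeff_scaleRoots]
    by_cases hi : i < P.natDegree
    · obtain ⟨c, hc⟩ := hs i
      refine ⟨c * s ^ (P.natDegree - i - 1), ?_⟩
      rw [map_mul, map_pow, hc]
      have : P.natDegree - i = (P.natDegree - i - 1) + 1 := by omega
      conv_rhs => rw [this, pow_succ]
      ring
    · rcases (not_lt.mp hi).lt_or_eq with hlt | heq
      · exact ⟨0, by rw [coeff_eq_zero_of_natDegree_lt hlt, map_zero, zero_mul]⟩
      · exact ⟨1, by rw [← heq, hP.coeff_natDegree, Nat.sub_self, pow_zero, map_one, one_mul]⟩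
  obtain ⟨q', hq'q, -, hq'monic⟩ := lifts_and_natDegree_eq_and_monic hlifts hqmonic
  refine ⟨q', hq'monic, ?_⟩
  rw [← eval₂_map, hq'q]
  exact hqroot

/-- transitivity of integrality, for ring homomorphisms -/
theorem isIntegralElem_comp {R A B : Type*} [CommRing R] [CommRing A] [CommRing B]
    (f : R →+* A) (g : A →+* B) (hf : f.IsIntegral) {x : B} (hx : g.IsIntegralElem x) :
    (g.comp f).IsIntegralElem x := by
  let _ := f.toAlgebra
  let _ := g.toAlgebra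
  let _ := (g.comp f).toAlgebra
  have : IsScalarTower R A B := IsScalarTower.of_algebraMap_eq' rfl
  have : Algebra.IsIntegral R A := ⟨hf⟩
  exact isIntegral_trans (R := R) (A := A) x hx

/-- `K'[X]` is integral over `K[X]` when `K'/K` is integral. -/
theorem isIntegral_mapRingHom {K K' : Type*} [CommRing K] [CommRing K'] (φ : K →+* K')
    (hφ : φ.IsIntegral) : (mapRingHom φ).IsIntegral := by
  intro p
  induction p using Polynomial.induction_on' with
  | add p q hp hq => exact RingHom.IsIntegralElem.add _ hp hq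
  | monomial n a =>
    rw [← C_mul_X_pow_eq_monomial]
    refine RingHom.IsIntegralElem.mul _ ?_ ?_
    · obtain ⟨r, hr, hra⟩ := hφ a
      refine ⟨r.map C, hr.map C, ?_⟩
      rw [eval₂_map]
      have h : (mapRingHom φ).comp C = (C : K' →+* K'[X]).comp φ := by
        ext x
        simp
      rw [h, ← hom_eval₂, hra, map_zero]
    · have h : (X : K'[X]) ^ n = mapRingHom φ (X ^ n) := by simp
      rw [h]
      exact RingHom.isIntegralElem_map _

/-- every ring homomorphism `ℚ → ℚ̄` is integral -/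
theorem isIntegral_rat_algClosure (φ : ℚ →+* AlgebraicClosure ℚ) : φ.IsIntegral := by
  intro a
  have h : φ = @algebraMap ℚ (AlgebraicClosure ℚ) _ _ (AlgebraicClosure.instAlgebra (k := ℚ)) :=
    Subsingleton.elim _ _
  rw [h]
  exact (@Algebra.IsAlgebraic.isAlgebraic ℚ (AlgebraicClosure ℚ) _ _
    (AlgebraicClosure.instAlgebra (k := ℚ)) inferInstance a).isIntegral

/-! ### The ring `ℤ_(ℓ)`: units -/

theorem isUnit_of_not_dvd (u : Rl) (h : ¬ lR ℓ ∣ u) : IsUnit u := by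
  have h1 : rho0 ℓ u ≠ 0 := fun h0 => h ((rho0_eq_zero_iff ℓ u).mp h0)
  have hu0 : (u : ℚ) ≠ 0 := by
    intro h0
    apply h1
    rw [rho0_apply, h0]
    simp
  have hnum : ¬ (ℓ : ℤ) ∣ (u : ℚ).num := by
    intro hd
    apply h1
    rw [rho0_apply, Rat.cast_def, (ZMod.intCast_zmod_eq_zero_iff_dvd _ _).mpr hd, zero_div]
  have hmem : ((u : ℚ)⁻¹) ∈ GaloisRep.ratLocalizedAt ℓ := by
    rw [mem_ratLoc_iff, Rat.den_inv_of_ne_zero hu0, Nat.coprime_comm,
      (Fact.out : ℓ.Prime).coprime_iff_not_dvd]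
    intro hd
    exact hnum (Int.natCast_dvd.mpr hd)
  exact IsUnit.of_mul_eq_one ⟨(u : ℚ)⁻¹, hmem⟩
    (Subtype.ext (by rw [Subring.coe_mul, Subring.coe_one]; exact mul_inv_cancel₀ hu0))

theorem exists_pow_mul_unit (m : Rl) (hm : m ≠ 0) :
    ∃ (a : ℕ) (u : Rl), IsUnit u ∧ m = lR ℓ ^ a * u := by
  obtain ⟨c, hc, hnd⟩ := (finiteMultiplicity_lR ℓ hm).exists_eq_pow_mul_and_not_dvd
  exact ⟨_, c, isUnit_of_not_dvd ℓ c hnd, hc⟩

/-! ### Integral over `ℚ[j]` and in the Gauss ring ⟹ in the chart `j ≠ ∞` -/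

theorem mem_chartAlgFin_of_pow_mul (hℓN : ¬ ℓ ∣ N) (x : FF) (hxO : x ∈ OQ N ℓ) :
    ∀ a : ℕ, (ℓ : FF) ^ a * x ∈ chartAlgFin N ℓ → x ∈ chartAlgFin N ℓ := by
  intro a
  induction a with
  | zero => intro h; simpa using h
  | succ a ih =>
    intro h
    apply ih
    apply mem_chartAlgFin_of_mul N ℓ hℓN _ (mul_mem (pow_mem (natCast_mem _ ℓ) a) hxO)
    rw [← mul_assoc, ← pow_succ']
    exact h

theorem aeval_jq_comp_map :
    ((aeval jq : ℚ[X] →ₐ[ℚ] LaurentSeries ℚ) : ℚ[X] →+* LaurentSeries ℚ).comp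
      (mapRingHom (GaloisRep.ratLocalizedAt ℓ).subtype) = (valF N).comp (evF N ℓ (jFull N)) := by
  apply RingHom.ext
  intro c
  rw [RingHom.comp_apply, RingHom.comp_apply, valF_evF_jFull, iota_aeval]
  rfl

/-- An element of the Gauss ring of `F_N` that is integral over `ℚ[j]` lies in the chart
`j ≠ ∞` (clearing denominators, then saturation). -/
theorem mem_chartAlgFin_of_isIntegral_rat (hℓN : ¬ ℓ ∣ N) (x : FF) (hxO : x ∈ OQ N ℓ)
    (hint : ((aeval jq : ℚ[X] →ₐ[ℚ] LaurentSeries ℚ) : ℚ[X] →+* LaurentSeries ℚ).IsIntegralElem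
      (x : LaurentSeries ℚ)) : x ∈ chartAlgFin N ℓ := by
  obtain ⟨P, hP, hroot⟩ := hint
  obtain ⟨m, -, a', hm, -, ha'⟩ := exists_common_int_mul ℓ (1 : ℚ[X])
    (fun i : Fin (P.natDegree + 1) => P.coeff i)
  have hs : ∀ i, ∃ c : Rl[X], mapRingHom (GaloisRep.ratLocalizedAt ℓ).subtype c =
      mapRingHom (GaloisRep.ratLocalizedAt ℓ).subtype (C m) * P.coeff i := by
    intro i
    by_cases hi : i < P.natDegree + 1
    · refine ⟨a' ⟨i, hi⟩, ?_⟩
      rw [coe_mapRingHom, ha' ⟨i, hi⟩, map_C]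
      rfl
    · exact ⟨0, by rw [coeff_eq_zero_of_natDegree_lt (by omega), map_zero, mul_zero]⟩
  have h1 := isIntegralElem_mul_of_coeff (mapRingHom (GaloisRep.ratLocalizedAt ℓ).subtype)
    ((aeval jq : ℚ[X] →ₐ[ℚ] LaurentSeries ℚ) : ℚ[X] →+* LaurentSeries ℚ) (C m) P hP hroot hs
  rw [aeval_jq_comp_map N ℓ] at h1
  have h2 : ((aeval jq : ℚ[X] →ₐ[ℚ] LaurentSeries ℚ) : ℚ[X] →+* LaurentSeries ℚ)
      (mapRingHom (GaloisRep.ratLocalizedAt ℓ).subtype (C m)) * (x : LaurentSeries ℚ) =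
      valF N (algebraMap Rl FF m * x) := by
    rw [map_mul, valF_algebraMap, coe_mapRingHom, map_C]
    simp only [RingHom.coe_coe, aeval_C]
    rfl
  rw [h2] at h1
  have h3 := isIntegralElem_of_valF N _ _ h1
  have h4 : algebraMap Rl FF m * x ∈ chartAlgFin N ℓ :=
    (mem_chartAlg_iff N ℓ).mpr ((isIntegral_adjoin_singleton_iff (jFull N) _).mpr h3)
  obtain ⟨a, u, hu, rfl⟩ := exists_pow_mul_unit ℓ m hm
  obtain ⟨v, hv⟩ := hu.exists_left_inv
  have h5 : (ℓ : FF) ^ a * x ∈ chartAlgFin N ℓ := by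
    have h6 := (chartAlgFin N ℓ).mul_mem ((chartAlgFin N ℓ).algebraMap_mem v) h4
    have e : algebraMap Rl FF v * (algebraMap Rl FF (lR ℓ ^ a * u) * x) = (ℓ : FF) ^ a * x := by
      rw [← mul_assoc, ← map_mul, show v * (lR ℓ ^ a * u) = lR ℓ ^ a * (v * u) by ring, hv,
        mul_one, map_pow, lR, map_natCast]
    rwa [e] at h6
  exact mem_chartAlgFin_of_pow_mul N ℓ hℓN x hxO a h5

/-! ### `j(q^d)` is integral over `ℚ[j]` -/

theorem toT_injective' (K K' : Type*) [Field K] [Field K'] [Algebra K K'] :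
    Function.Injective (toT N K K') :=
  (qExpand_injective N).comp (IntY1829.coeffMap_injective _ (algebraMap K K').injective)

theorem toT_comp_aeval (K K' : Type*) [Field K] [Field K'] [Algebra K K'] :
    (toT N K K').comp ((aeval (jqModC K) : K[X] →ₐ[K] LaurentSeries K) : K[X] →+* LaurentSeries K) =
      ((aeval (R := K') (jt K' N)).toRingHom).comp (mapRingHom (algebraMap K K')) := by
  apply Polynomial.ringHom_ext
  · intro r
    simp only [RingHom.comp_apply, AlgHom.toRingHom_eq_coe, RingHom.coe_coe, aeval_C,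
      coe_mapRingHom, map_C, toT]
    rw [RedIndep.coeffMap_algebraMap', RedIndep.qExpand_algebraMap]
  · simp only [RingHom.comp_apply, AlgHom.toRingHom_eq_coe, RingHom.coe_coe, aeval_X,
      coe_mapRingHom, map_X, toT]
    rw [ModularCurve.coeffMap_jqModC]
    rfl

theorem isIntegralElem_jd_rat (d : ℕ) [NeZero d] (hd : d ∣ N) :
    ((aeval jq : ℚ[X] →ₐ[ℚ] LaurentSeries ℚ) : ℚ[X] →+* LaurentSeries ℚ).IsIntegralElem
      (qExpand ℚ d (jqModC ℚ)) := by
  classical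
  obtain ⟨D⟩ := exists_fieldAN N ℚ (Nat.cast_ne_zero.mpr (NeZero.ne N))
  have hb : ((aeval (R := AlgebraicClosure ℚ) (jt (AlgebraicClosure ℚ) N)).toRingHom).IsIntegralElem
      (D.J D.u₀ d) := by
    obtain ⟨q, hq, -, hqm⟩ := lifts_and_natDegree_eq_and_monic (D.charpoly_J d hd)
      (monic_prod_of_monic _ _ fun u _ => monic_X_sub_C _)
    refine ⟨q, hqm, ?_⟩
    rw [← eval_map, hq, eval_prod]
    exact Finset.prod_eq_zero (Finset.mem_univ D.u₀) (by simp)
  have hc := isIntegralElem_comp (mapRingHom (algebraMap ℚ (AlgebraicClosure ℚ))) _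
    (isIntegral_mapRingHom _ (isIntegral_rat_algClosure _)) hb
  rw [← toT_comp_aeval N ℚ (AlgebraicClosure ℚ), D.base_J d hd] at hc
  have hx : qExpand (AlgebraicClosure ℚ) N (qExpand (AlgebraicClosure ℚ) d
      (jqModC (AlgebraicClosure ℚ))) = toT N ℚ (AlgebraicClosure ℚ) (qExpand ℚ d (jqModC ℚ)) := by
    simp only [toT, RingHom.comp_apply]
    rw [ModularCurve.coeffMap_qExpand, ModularCurve.coeffMap_jqModC]
  rw [hx] at hc
  obtain ⟨P, hP, hroot⟩ := hc
  refine ⟨P, hP, toT_injective' N ℚ (AlgebraicClosure ℚ) ?_⟩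
  rw [hom_eval₂, map_zero]
  exact hroot

theorem jd_mem_chartAlgFin (hℓN : ¬ ℓ ∣ N) (d : ℕ) [NeZero d] (hd : d ∣ N) :
    (⟨qExpand ℚ d (jqModC ℚ), jqModCd_mem_full ℚ N hd⟩ : ↥(modularFunctionFieldFull N)) ∈
      chartAlgFin N ℓ :=
  mem_chartAlgFin_of_isIntegral_rat N ℓ hℓN _ (jd_mem_OQ N ℓ d hd) (isIntegralElem_jd_rat N d hd)

/-! ### The eta-quotient unit -/

theorem exists_yUnit_chartAlgFin (hℓN : ¬ ℓ ∣ N) :
    ∃ x : chartAlgFin N ℓ, ((x : ↥(modularFunctionFieldFull N)) : LaurentSeries ℚ) =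
      (Fermat.Agent.S28.yUnit ℚ N : LaurentSeries ℚ) := by
  obtain ⟨D⟩ := exists_ANData N
  have hint := isIntegral_yUnit N ℓ hℓN D
  have hmem : (yUnit ℚ N : LaurentSeries ℚ) ∈ modularFunctionFieldFull N :=
    yUnit_mem_full N ℚ (Nat.cast_ne_zero.mpr (NeZero.ne N))
  have h1 := (isIntegral_adjoin_singleton_iff jq _).mp hint
  rw [aeval_jq_eq_valF_comp_evF N ℓ] at h1
  have h3 := isIntegralElem_of_valF N (evF N ℓ (jFull N))
    (⟨(yUnit ℚ N : LaurentSeries ℚ), hmem⟩ : FF) h1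
  exact ⟨⟨⟨(yUnit ℚ N : LaurentSeries ℚ), hmem⟩,
    (mem_chartAlg_iff N ℓ).mpr ((isIntegral_adjoin_singleton_iff (jFull N) _).mpr h3)⟩, rfl⟩

end Fermat.Agent.S18.RED2689
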